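import Fermat.Agent.S28.H748.Package

/-!
# S28 / H748 — the analytic input of route #1105 in the shape of `H868.AnalyticInput`

`analyticInput748 : ∀ N [NeZero N], ∃ P : ModFunPackage N, ∀ γ, P.perm γ (P.idxJ 1 _) = P.idxJ 1 _`.
-/

set_option autoImplicit false

noncomputable section

open UpperHalfPlane HahnSeries ModularCurve Fermat.Agent.S24
open scoped Real MatrixGroups Manifold

namespace Fermat.Agent.S28.H748

theorem conjJ_one_smul (γ : SL(2, ℤ)) (τ : ℍ) : conjJ 1 0 1 (γ • τ) = conjJ 1 0 1 τ := by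
  simp only [conjJ, Nat.cast_zero, infAff_one_zero_one]
  exact H565.jFun_smul γ τ

theorem modFunPackage_perm_idxJ_one (N : ℕ) [NeZero N] (γ : SL(2, ℤ)) :
    (modFunPackage N).perm γ ((modFunPackage N).idxJ 1 (one_dvd N)) =
      (modFunPackage N).idxJ 1 (one_dvd N) := by
  apply Subtype.ext
  funext τ
  show conjJ 1 0 1 (γ⁻¹ • τ) = conjJ 1 0 1 τ
  exact conjJ_one_smul γ⁻¹ τ

/-- The statement `H868.AnalyticInput` (unfolded). -/
theorem analyticInput748 : ∀ (N : ℕ) [NeZero N], ∃ P : ModFunPackage N,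
    ∀ γ : SL(2, ℤ), P.perm γ (P.idxJ 1 (one_dvd N)) = P.idxJ 1 (one_dvd N) :=
  fun N _ => ⟨modFunPackage N, modFunPackage_perm_idxJ_one N⟩

end Fermat.Agent.S28.H748

end
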